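import Fermat.Agent.S17.HL.Global
import Fermat.Agent.S17.HL.HKRat
import Fermat.Agent.S17.HL.HKField
import Fermat.Agent.S17.HL.Siegel

set_option autoImplicit false

/-!
# S17 : the abstract curve datum

`V m = L(m ∞)` is identified with `Qb ^ (d m)` through a `ℚ`-rational basis; `T m m'` are the (rational) structure constants of
the multiplication `V m × V m' → V (m + m')`; `Z m s` is the divisor of zeros `div s + m ∞` of a section (a multiset
of points of cardinality `m`); `U m E = L(m ∞ - E)`.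
-/

namespace Fermat.Agent.S17

open HL

/-- cast a rational vector to `Qb` -/
noncomputable def cst {ι : Type} (x : ι → ℚ) : ι → Qb := fun i => ((x i : ℚ) : Qb)

structure CurveDatum where
  g : ℕ
  c0 : ℕ
  d : ℕ → ℕ
  d_eq : ∀ m, c0 ≤ m → d m + g = m + 1
  T : ∀ m m' : ℕ, Tab (d m) (d m') (d (m + m'))
  Pt : Type
  /-- zero divisor of a section -/
  Z : ∀ m : ℕ, (Fin (d m) → Qb) → Multiset Pt
  card_Z : ∀ m s, s ≠ 0 → Multiset.card (Z m s) = m
  Z_smul : ∀ m (c : Qb) s, c ≠ 0 → Z m (c • s) = Z m s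
  mul_ne_zero : ∀ m m' (s : Fin (d m) → Qb) (s' : Fin (d m') → Qb), s ≠ 0 → s' ≠ 0 →
    (T m m').mul s s' ≠ 0
  Z_mul : ∀ m m' (s : Fin (d m) → Qb) (s' : Fin (d m') → Qb), s ≠ 0 → s' ≠ 0 →
    Z (m + m') ((T m m').mul s s') = Z m s + Z m' s'
  /-- `L(m ∞ - E)` -/
  U : ∀ m : ℕ, Multiset Pt → Submodule Qb (Fin (d m) → Qb)
  mem_U : ∀ m E s, s ∈ U m E ↔ s = 0 ∨ E ≤ Z m s
  /-- Riemann's theorem -/
  finrank_U : ∀ m E, Multiset.card E + c0 ≤ m →
    Module.finrank Qb (U m E) + Multiset.card E = d m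
  /-- divisibility -/
  exists_div : ∀ j m (a : Fin (d j) → Qb) (t : Fin (d (j + m)) → Qb), a ≠ 0 → t ≠ 0 →
    Z j a ≤ Z (j + m) t → ∃ s, t = (T j m).mul a s
  /-- a section is determined up to a scalar by its zeros -/
  eq_smul_of_Z_eq : ∀ m s s', s ≠ 0 → s' ≠ 0 → Z m s = Z m s' → ∃ c : Qb, c ≠ 0 ∧ s' = c • s
  /-- the geometric input of uniform surjectivity (closedness of the family + pencil trick) -/
  hypUS : ∀ m e m' e' j j' r ρ r' ρ' r'' : ℕ, e + g + c0 ≤ m → m + c0 ≤ j → e' + g + c0 ≤ m' →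
    m' + c0 ≤ j' → m + e' + c0 ≤ m' + e →
    r + e = d m → ρ + e = d (j + m) → r' + e' = d m' → ρ' + e' = d (j' + m') →
    r'' + e + e' = d (m + m') →
    HypUS (T j m) (T j' m') (T m m') r ρ r' ρ' r''
  /-- the point at infinity and the constant function `1` as a section of `V m` -/
  inf : Pt
  one : ∀ m, Fin (d m) → ℚ
  one_ne_zero : ∀ m, one m ≠ 0
  Z_one : ∀ m, Z m (cst (one m)) = Multiset.replicate m inf
  /-- Galois stable divisors -/
  IsRat : Multiset Pt → Prop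
  isRat_add : ∀ E E', IsRat E → IsRat E' → IsRat (E + E')
  isRat_of_add : ∀ E E', IsRat (E + E') → IsRat E → IsRat E'
  isRat_Z : ∀ m (s : Fin (d m) → ℚ), s ≠ 0 → IsRat (Z m (cst s))
  definedOver_rat : ∀ m E, IsRat E → DefinedOver (algebraMap ℚ Qb) (U m E)

namespace CurveDatum

variable (𝒞 : CurveDatum)

/-- height of `U m E` relative to the number field `K` -/
noncomputable def Hgt {K : Type} [Field K] [NumberField K] (φ : K →+* Qb) (m : ℕ)
    (E : Multiset 𝒞.Pt) : ℝ :=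
  HK φ (𝒞.U m E)

/-- all the spaces `U m E'`, `E' ≤ E`, `m ≤ mmax`, are defined over `K`. -/
def KRat {K : Type} [Field K] (φ : K →+* Qb) (mmax : ℕ) (E : Multiset 𝒞.Pt) : Prop :=
  ∀ m ≤ mmax, ∀ E' ≤ E, DefinedOver φ (𝒞.U m E')

/-- linear equivalence of effective divisors of the same degree, witnessed in `V m`. -/
def LinEq (m : ℕ) (E E' : Multiset 𝒞.Pt) : Prop :=
  ∃ (a a' : Fin (𝒞.d m) → Qb) (R : Multiset 𝒞.Pt), a ≠ 0 ∧ a' ≠ 0 ∧
    𝒞.Z m a = E + R ∧ 𝒞.Z m a' = E' + R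

end CurveDatum

end Fermat.Agent.S17
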